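/-
S16 / package LH (helper1).  Coset bookkeeping for the Hecke operators `T_ℓ` (`ℓ ∤ N`) and `U_p`
(`p ∣ N`) on `Γ₀(N)`: for `γ ∈ Γ₀(N)` and a coset representative `α_x` we have
`α_x γ = c(γ,x) α_{σ_γ x}` with `c(γ,x) ∈ Γ₀(N)` and `σ_γ` a permutation of the index set.
We record the lower right entry of `c(γ,x)` modulo `N` and an abstract "potential" lemma.
-/
import Mathlib
import Fermat.Prelude.Sol.S_ModularForm_heckeT_slash_eq_self_of_mem_Gamma0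

set_option autoImplicit false

noncomputable section

namespace Fermat.Agent.S16lib.LH

open UpperHalfPlane CongruenceSubgroup Matrix.SpecialLinearGroup ModularForm
open P2MW.S_ModularForm_heckeT_slash_eq_self_of_mem_Gamma0.ModularForm.HeckeSlashInvariance
open scoped MatrixGroups ModularForm

/-- **Potential lemma.** If `G (δ z) - G z = φ δ` for all `δ ∈ Γ₀(N)` and the representatives
`rep x` satisfy `rep x * γ = c x * rep (σ x)`, then `∑ x, G ∘ rep x` changes under `γ` by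
`∑ x, φ (c x)`. -/
theorem sum_potential {N : ℕ} {ι : Type*} [Fintype ι] (rep : ι → GL (Fin 2) ℝ) (γ : Gamma0 N)
    (σ : Equiv.Perm ι) (c : ι → Gamma0 N)
    (rel : ∀ x, rep x * (mapGL ℝ (γ : SL(2, ℤ)) : GL (Fin 2) ℝ) =
      (mapGL ℝ ((c x : Gamma0 N) : SL(2, ℤ)) : GL (Fin 2) ℝ) * rep (σ x))
    (G : ℍ → ℂ) (φ : Gamma0 N → ℂ)
    (hG : ∀ (δ : Gamma0 N) (z : ℍ), G ((δ : SL(2, ℤ)) • z) - G z = φ δ) (z : ℍ) :
    (∑ x, G (rep x • ((γ : SL(2, ℤ)) • z))) - ∑ x, G (rep x • z) = ∑ x, φ (c x) := by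
  have key : ∀ x, G (rep x • ((γ : SL(2, ℤ)) • z)) = G (rep (σ x) • z) + φ (c x) := by
    intro x
    have h1 : rep x • ((γ : SL(2, ℤ)) • z) = ((c x : Gamma0 N) : SL(2, ℤ)) • (rep (σ x) • z) := by
      show rep x • ((mapGL ℝ (γ : SL(2, ℤ)) : GL (Fin 2) ℝ) • z) =
        (mapGL ℝ ((c x : Gamma0 N) : SL(2, ℤ)) : GL (Fin 2) ℝ) • (rep (σ x) • z)
      rw [← mul_smul, ← mul_smul, rel x]
    rw [h1]
    have := hG (c x) (rep (σ x) • z)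
    linear_combination this
  simp_rw [key]
  rw [Finset.sum_add_distrib, Equiv.sum_comp σ (fun x => G (rep x • z))]
  ring

/-! ### The operator `T_ℓ`, `ℓ ∤ N` -/

section T

variable {N : ℕ} {ℓ : ℕ} [Fact ℓ.Prime]

theorem exists_tCoc (hℓN : ¬ ℓ ∣ N) (γ : Gamma0 N) (x : OnePoint (ZMod ℓ)) :
    ∃ c : Gamma0 N, heckeRep ℓ x * (mapGL ℝ (γ : SL(2, ℤ)) : GL (Fin 2) ℝ) =
      (mapGL ℝ ((c : Gamma0 N) : SL(2, ℤ)) : GL (Fin 2) ℝ) *
        heckeRep ℓ (redMatrix ℓ (γ : SL(2, ℤ)) • x) := by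
  have hcN : (N : ℤ) ∣ (γ : SL(2, ℤ)) 1 0 :=
    (ZMod.intCast_zmod_eq_zero_iff_dvd _ _).mp (Gamma0_mem.mp γ.2)
  obtain ⟨g', hg', hmul⟩ := heckeRep_mul hℓN (γ : SL(2, ℤ)) hcN x
  exact ⟨⟨g', Gamma0_mem.mpr ((ZMod.intCast_zmod_eq_zero_iff_dvd _ _).mpr hg')⟩, hmul⟩

/-- The `Γ₀(N)`-cocycle of `T_ℓ`. -/
def tCoc (hℓN : ¬ ℓ ∣ N) (γ : Gamma0 N) (x : OnePoint (ZMod ℓ)) : Gamma0 N :=
  (exists_tCoc hℓN γ x).choose

/-- The permutation of the `ℓ + 1` representatives induced by `γ`. -/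
def tPerm (ℓ : ℕ) [Fact ℓ.Prime] (γ : Gamma0 N) : Equiv.Perm (OnePoint (ZMod ℓ)) :=
  MulAction.toPerm (redMatrix ℓ (γ : SL(2, ℤ)))

theorem tCoc_rel (hℓN : ¬ ℓ ∣ N) (γ : Gamma0 N) (x : OnePoint (ZMod ℓ)) :
    heckeRep ℓ x * (mapGL ℝ (γ : SL(2, ℤ)) : GL (Fin 2) ℝ) =
      (mapGL ℝ ((tCoc hℓN γ x : Gamma0 N) : SL(2, ℤ)) : GL (Fin 2) ℝ) *
        heckeRep ℓ (tPerm ℓ γ x) :=
  (exists_tCoc hℓN γ x).choose_spec

/-- lower right entry of the representative `α_x` of `T_ℓ`. -/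
def repD (ℓ : ℕ) (x : OnePoint (ZMod ℓ)) : ℕ := x.elim 1 (fun _ => ℓ)

omit [Fact ℓ.Prime] in
@[simp] theorem repD_infty : repD ℓ (OnePoint.infty) = 1 := rfl
omit [Fact ℓ.Prime] in
@[simp] theorem repD_coe (j : ZMod ℓ) : repD ℓ (j : OnePoint (ZMod ℓ)) = ℓ := rfl

theorem heckeRep_one_zero (x : OnePoint (ZMod ℓ)) :
    (heckeRep ℓ x : Matrix (Fin 2) (Fin 2) ℝ) 1 0 = 0 := by
  have hℓ : ℓ ≠ 0 := (Fact.out : ℓ.Prime).ne_zero
  induction x using OnePoint.rec with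
  | infty => simp [heckeRep, val_heckeDiagMatrix hℓ]
  | coe j => simp [heckeRep, val_heckeMatrix hℓ]

theorem heckeRep_one_one (x : OnePoint (ZMod ℓ)) :
    (heckeRep ℓ x : Matrix (Fin 2) (Fin 2) ℝ) 1 1 = (repD ℓ x : ℝ) := by
  have hℓ : ℓ ≠ 0 := (Fact.out : ℓ.Prime).ne_zero
  induction x using OnePoint.rec with
  | infty => simp [heckeRep, val_heckeDiagMatrix hℓ]
  | coe j => simp [heckeRep, val_heckeMatrix hℓ]

theorem heckeRep_zero_one_int (x : OnePoint (ZMod ℓ)) :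
    ∃ b : ℤ, (heckeRep ℓ x : Matrix (Fin 2) (Fin 2) ℝ) 0 1 = (b : ℝ) := by
  have hℓ : ℓ ≠ 0 := (Fact.out : ℓ.Prime).ne_zero
  induction x using OnePoint.rec with
  | infty => exact ⟨0, by simp [heckeRep, val_heckeDiagMatrix hℓ]⟩
  | coe j => exact ⟨(j.val : ℤ), by simp [heckeRep, val_heckeMatrix hℓ]⟩

/-- The lower right entries: `d(c(γ,x)) · d_{σ x} = d_x · d(γ)` in `ZMod N`. -/
theorem gamma0Map_tCoc (hℓN : ¬ ℓ ∣ N) (γ : Gamma0 N) (x : OnePoint (ZMod ℓ)) :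
    Gamma0Map N (tCoc hℓN γ x) * (repD ℓ (tPerm ℓ γ x) : ZMod N) =
      (repD ℓ x : ZMod N) * Gamma0Map N γ := by
  have h := tCoc_rel hℓN γ x
  have h11 := congrFun (congrFun (congrArg (fun M : GL (Fin 2) ℝ => (M : Matrix (Fin 2) (Fin 2) ℝ)) h) 1) 1
  simp only [Matrix.GeneralLinearGroup.coe_mul, Matrix.mul_apply, Fin.sum_univ_two,
    heckeRep_one_zero, heckeRep_one_one, zero_mul, zero_add] at h11
  obtain ⟨b, hb⟩ := heckeRep_zero_one_int (tPerm ℓ γ x)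
  rw [hb] at h11
  simp only [mapGL_apply] at h11
  have h11' : (repD ℓ x : ℤ) * (γ : SL(2, ℤ)) 1 1 =
      ((tCoc hℓN γ x : Gamma0 N) : SL(2, ℤ)) 1 0 * b +
        ((tCoc hℓN γ x : Gamma0 N) : SL(2, ℤ)) 1 1 * (repD ℓ (tPerm ℓ γ x) : ℤ) := by
    exact_mod_cast h11
  have hc0 : ((((tCoc hℓN γ x : Gamma0 N) : SL(2, ℤ)) 1 0 : ℤ) : ZMod N) = 0 :=
    Gamma0_mem.mp (tCoc hℓN γ x).2
  have := congrArg (Int.cast : ℤ → ZMod N) h11'
  push_cast at this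
  rw [hc0, zero_mul, zero_add] at this
  simp only [Gamma0Map, MonoidHom.coe_mk, OneHom.coe_mk]
  exact this.symm

end T

/-! ### The operator `U_p`, `p ∣ N` -/

section U

variable {N : ℕ} {p : ℕ} [NeZero p]

omit [NeZero p] in
theorem lowerLeft_zmod_eq_zero (hpN : p ∣ N) (γ : Gamma0 N) :
    ((((γ : SL(2, ℤ)) 1 0 : ℤ)) : ZMod p) = 0 := by
  have hcN : (N : ℤ) ∣ (γ : SL(2, ℤ)) 1 0 :=
    (ZMod.intCast_zmod_eq_zero_iff_dvd _ _).mp (Gamma0_mem.mp γ.2)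
  exact (ZMod.intCast_zmod_eq_zero_iff_dvd _ _).mpr ((Int.natCast_dvd_natCast.mpr hpN).trans hcN)

/-- The permutation of the `p` representatives of `U_p` induced by `γ`. -/
def uPerm (hpN : p ∣ N) (γ : Gamma0 N) : Equiv.Perm (ZMod p) :=
  affinePerm (γ : SL(2, ℤ)) (lowerLeft_zmod_eq_zero hpN γ)

theorem exists_uCoc (hpN : p ∣ N) (γ : Gamma0 N) (x : ZMod p) :
    ∃ c : Gamma0 N, heckeMatrix p x.val * (mapGL ℝ (γ : SL(2, ℤ)) : GL (Fin 2) ℝ) =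
      (mapGL ℝ ((c : Gamma0 N) : SL(2, ℤ)) : GL (Fin 2) ℝ) *
        heckeMatrix p (uPerm hpN γ x).val := by
  have hcN : (N : ℤ) ∣ (γ : SL(2, ℤ)) 1 0 :=
    (ZMod.intCast_zmod_eq_zero_iff_dvd _ _).mp (Gamma0_mem.mp γ.2)
  have hc : (p : ℤ) ∣ (γ : SL(2, ℤ)) 1 0 := (Int.natCast_dvd_natCast.mpr hpN).trans hcN
  obtain ⟨g', hg', hmul⟩ := heckeMatrix_mul_of_dvd (γ : SL(2, ℤ)) hc x
  refine ⟨⟨g', ?_⟩, hmul⟩
  rw [Gamma0_mem, hg']
  push_cast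
  rw [Gamma0_mem.mp γ.2, mul_zero]

/-- The `Γ₀(N)`-cocycle of `U_p`. -/
def uCoc (hpN : p ∣ N) (γ : Gamma0 N) (x : ZMod p) : Gamma0 N :=
  (exists_uCoc hpN γ x).choose

theorem uCoc_rel (hpN : p ∣ N) (γ : Gamma0 N) (x : ZMod p) :
    heckeMatrix p x.val * (mapGL ℝ (γ : SL(2, ℤ)) : GL (Fin 2) ℝ) =
      (mapGL ℝ ((uCoc hpN γ x : Gamma0 N) : SL(2, ℤ)) : GL (Fin 2) ℝ) *
        heckeMatrix p (uPerm hpN γ x).val :=
  (exists_uCoc hpN γ x).choose_spec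

/-- `a d = 1` in `ZMod N` for elements of `Γ₀(N)`. -/
theorem upperLeft_mul_gamma0Map (γ : Gamma0 N) :
    ((((γ : SL(2, ℤ)) 0 0 : ℤ)) : ZMod N) * Gamma0Map N γ = 1 := by
  have hdet := det_eq (γ : SL(2, ℤ))
  have := congrArg (Int.cast : ℤ → ZMod N) hdet
  push_cast at this
  rw [Gamma0_mem.mp γ.2, mul_zero, sub_zero] at this
  simpa only [Gamma0Map, MonoidHom.coe_mk, OneHom.coe_mk] using this

/-- The lower right entry of `c(γ,x)` agrees with that of `γ` modulo `N`. -/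
theorem gamma0Map_uCoc (hpN : p ∣ N) (γ : Gamma0 N) (x : ZMod p) :
    Gamma0Map N (uCoc hpN γ x) = Gamma0Map N γ := by
  have hp : p ≠ 0 := NeZero.ne p
  have h := uCoc_rel hpN γ x
  have h00 := congrFun (congrFun (congrArg (fun M : GL (Fin 2) ℝ => (M : Matrix (Fin 2) (Fin 2) ℝ)) h) 0) 0
  simp only [Matrix.GeneralLinearGroup.coe_mul, Matrix.mul_apply, Fin.sum_univ_two,
    val_heckeMatrix hp, mapGL_apply] at h00
  simp [-ZMod.natCast_val] at h00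
  have h00' : (γ : SL(2, ℤ)) 0 0 + (x.val : ℤ) * (γ : SL(2, ℤ)) 1 0 =
      ((uCoc hpN γ x : Gamma0 N) : SL(2, ℤ)) 0 0 := by
    exact_mod_cast h00
  have := congrArg (Int.cast : ℤ → ZMod N) h00'
  push_cast at this
  rw [Gamma0_mem.mp γ.2, mul_zero, add_zero] at this
  have h1 := upperLeft_mul_gamma0Map γ
  have h2 := upperLeft_mul_gamma0Map (uCoc hpN γ x)
  rw [← this] at h2
  -- a * d' = 1 = a * d
  calc Gamma0Map N (uCoc hpN γ x)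
      = (((((γ : SL(2, ℤ)) 0 0 : ℤ)) : ZMod N) * Gamma0Map N γ) * Gamma0Map N (uCoc hpN γ x) := by
        rw [h1, one_mul]
    _ = Gamma0Map N γ * (((((γ : SL(2, ℤ)) 0 0 : ℤ)) : ZMod N) * Gamma0Map N (uCoc hpN γ x)) := by
        ring
    _ = Gamma0Map N γ := by rw [h2, mul_one]

end U

end Fermat.Agent.S16lib.LH
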