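/-
S16 / package LH (helper1).  The normalised primitive of `T_ℓ f` and `U_p f`, and the Hecke
equivariance of the prelude's `periodHomPair`:
`periodHomPair (T f, T g) γ = ∑ x, periodHomPair (f, g) (c(γ,x))`.
-/
import Mathlib
import Fermat.Agent.S16lib.LH.Cosets
import Fermat.Agent.ProgramR.ES.Injective
import Fermat.Prelude.Def_ModularForm_HeckeOperatorForms

set_option autoImplicit false

noncomputable section

namespace Fermat.Agent.S16lib.LH

open UpperHalfPlane Filter Topology CongruenceSubgroup Matrix.SpecialLinearGroup ModularForm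
open ModularCurve ModularCurve.Period Fermat.Agent.TeamB Fermat.Agent.ProgramR.ES
open P2MW.S_ModularForm_heckeT_slash_eq_self_of_mem_Gamma0.ModularForm.HeckeSlashInvariance
open scoped MatrixGroups ModularForm Manifold ComplexConjugate

/-! ### Generalities -/

theorem hasDerivH_finset_sum {ι : Type*} (s : Finset ι) (F g : ι → ℍ → ℂ)
    (h : ∀ i ∈ s, HasDerivH (F i) (g i)) :
    HasDerivH (fun z => ∑ i ∈ s, F i z) (∑ i ∈ s, g i) := by
  intro τ
  have h1 : HasDerivAt (fun w : ℂ => ∑ i ∈ s, (F i ∘ ofComplex) w) (∑ i ∈ s, g i τ) (τ : ℂ) :=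
    HasDerivAt.fun_sum fun i hi => h i hi τ
  rw [Finset.sum_apply]
  exact h1

theorem tendsto_heckeMatrix_smul {p : ℕ} (hp : p ≠ 0) (j : ℕ) :
    Tendsto (fun z : ℍ => heckeMatrix p j • z) atImInfty atImInfty := by
  rw [atImInfty, tendsto_comap_iff]
  have hfun : (UpperHalfPlane.im ∘ fun z : ℍ => heckeMatrix p j • z) = fun z : ℍ => z.im / p := by
    funext z
    simp only [Function.comp_apply]
    rw [← coe_im, coe_heckeMatrix_smul hp]
    have : (((z : ℂ) + (j : ℂ)) / (p : ℂ)) = (((z : ℂ) + ((j : ℝ) : ℂ)) / ((p : ℝ) : ℂ)) := by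
      push_cast; rfl
    rw [this, Complex.div_ofReal_im]
    simp
  rw [hfun]
  have hp' : (0 : ℝ) < p := by exact_mod_cast Nat.pos_of_ne_zero hp
  exact Filter.Tendsto.atTop_div_const hp' tendsto_comap

theorem tendsto_heckeDiagMatrix_smul {p : ℕ} (hp : p ≠ 0) :
    Tendsto (fun z : ℍ => heckeDiagMatrix p • z) atImInfty atImInfty := by
  rw [atImInfty, tendsto_comap_iff]
  have hfun : (UpperHalfPlane.im ∘ fun z : ℍ => heckeDiagMatrix p • z) =
      fun z : ℍ => (p : ℝ) * z.im := by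
    funext z
    simp only [Function.comp_apply]
    rw [← coe_im, coe_heckeDiagMatrix_smul hp]
    have : ((p : ℂ) * (z : ℂ)) = (((p : ℝ) : ℂ) * (z : ℂ)) := by push_cast; rfl
    rw [this, Complex.im_ofReal_mul]
    simp
  rw [hfun]
  have hp' : (0 : ℝ) < p := by exact_mod_cast Nat.pos_of_ne_zero hp
  exact Filter.Tendsto.const_mul_atTop hp' tendsto_comap

theorem tendsto_heckeRep_smul {ℓ : ℕ} [Fact ℓ.Prime] (x : OnePoint (ZMod ℓ)) :
    Tendsto (fun z : ℍ => heckeRep ℓ x • z) atImInfty atImInfty := by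
  have hℓ : ℓ ≠ 0 := (Fact.out : ℓ.Prime).ne_zero
  induction x using OnePoint.rec with
  | infty => exact tendsto_heckeDiagMatrix_smul hℓ
  | coe j => exact tendsto_heckeMatrix_smul hℓ j.val

theorem det_heckeRep_pos {ℓ : ℕ} (x : OnePoint (ZMod ℓ)) : 0 < ((heckeRep ℓ x).det : ℝ) := by
  induction x using OnePoint.rec with
  | infty => exact det_heckeDiagMatrix_pos ℓ
  | coe j => exact det_heckeMatrix_pos ℓ j.val

variable {N : ℕ} [NeZero N]

/-! ### Primitives of `T_ℓ f` and `U_p f` -/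

theorem prim_heckeT {ℓ : ℕ} [Fact ℓ.Prime] (hℓ : ℓ.Prime) (hℓN : ¬ ℓ ∣ N)
    (f : CuspForm (Gamma0 N) 2) :
    prim (CuspForm.heckeTLin 2 hℓ hℓN f) =
      fun z => ∑ x : OnePoint (ZMod ℓ), prim f (heckeRep ℓ x • z) := by
  symm
  refine eq_prim ?_ ?_
  · rw [CuspForm.coe_heckeTLin_apply, heckeT_eq_sum_onePoint]
    exact hasDerivH_finset_sum Finset.univ _ _ fun x _ =>
      hasDerivH_comp_smul (prim_hasDerivH f) (det_heckeRep_pos x)
  · have : Tendsto (fun z : ℍ => ∑ x : OnePoint (ZMod ℓ), prim f (heckeRep ℓ x • z)) atImInfty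
        (𝓝 (∑ _x : OnePoint (ZMod ℓ), (0 : ℂ))) :=
      tendsto_finsetSum _ fun x _ => (prim_tendsto f).comp (tendsto_heckeRep_smul x)
    simpa using this

theorem prim_heckeU {p : ℕ} [NeZero p] (hpN : p ∣ N) (f : CuspForm (Gamma0 N) 2) :
    prim (CuspForm.heckeULin 2 hpN f) =
      fun z => ∑ x : ZMod p, prim f (heckeMatrix p x.val • z) := by
  symm
  refine eq_prim ?_ ?_
  · rw [CuspForm.coe_heckeULin_apply, heckeU_eq_sum_zmod]
    exact hasDerivH_finset_sum Finset.univ _ _ fun x _ =>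
      hasDerivH_comp_smul (prim_hasDerivH f) (det_heckeMatrix_pos p x.val)
  · have : Tendsto (fun z : ℍ => ∑ x : ZMod p, prim f (heckeMatrix p x.val • z)) atImInfty
        (𝓝 (∑ _x : ZMod p, (0 : ℂ))) :=
      tendsto_finsetSum _ fun x _ =>
        (prim_tendsto f).comp (tendsto_heckeMatrix_smul (NeZero.ne p) x.val)
    simpa using this

end Fermat.Agent.S16lib.LH
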