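/-
S16 / package LH (helper1).  Hecke equivariance of the prelude's `periodHomPair`:
`periodHomPair (T_ℓ f, T_ℓ g) γ = ∑ x, periodHomPair (f, g) (c_ℓ(γ,x))` and the same for `U_p`.
-/
import Mathlib
import Fermat.Agent.S16lib.LH.PrimHecke

set_option autoImplicit false

noncomputable section

namespace Fermat.Agent.S16lib.LH

open UpperHalfPlane Filter Topology CongruenceSubgroup Matrix.SpecialLinearGroup ModularForm
open ModularCurve ModularCurve.Period Fermat.Agent.TeamB Fermat.Agent.ProgramR.ES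
open P2MW.S_ModularForm_heckeT_slash_eq_self_of_mem_Gamma0.ModularForm.HeckeSlashInvariance
open scoped MatrixGroups ModularForm Manifold ComplexConjugate

/-! ### Commuting the representatives with the anti-holomorphic involution `J` -/

theorem heckeDiagMatrix_smul_J {p : ℕ} (hp : p ≠ 0) (z : ℍ) :
    heckeDiagMatrix p • (J • z) = J • (heckeDiagMatrix p • z) := by
  apply UpperHalfPlane.ext
  rw [coe_heckeDiagMatrix_smul hp, coe_J_smul, coe_J_smul, coe_heckeDiagMatrix_smul hp]
  simp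

theorem sum_heckeMatrix_J {p : ℕ} [NeZero p] (F : ℍ → ℂ)
    (hF : Function.Periodic (F ∘ ofComplex) ((1 : ℝ) : ℂ)) (z : ℍ) :
    ∑ x : ZMod p, F (heckeMatrix p x.val • (J • z)) =
      ∑ x : ZMod p, F (J • (heckeMatrix p x.val • z)) := by
  have hp : p ≠ 0 := NeZero.ne p
  have hpc : (p : ℂ) ≠ 0 := by exact_mod_cast hp
  have key : ∀ x : ZMod p, F (heckeMatrix p x.val • (J • z)) =
      F (J • (heckeMatrix p (-x).val • z)) := by
    intro x
    by_cases hx : x = 0
    · subst hx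
      congr 1
      apply UpperHalfPlane.ext
      rw [coe_heckeMatrix_smul hp, coe_J_smul, coe_J_smul, coe_heckeMatrix_smul hp]
      simp [neg_div]
    · refine periodic_apply hF (J • (heckeMatrix p (-x).val • z)) _ ?_
      rw [coe_heckeMatrix_smul hp, coe_J_smul, coe_J_smul, coe_heckeMatrix_smul hp]
      have hval : ((-x).val : ℂ) = (p : ℂ) - (x.val : ℂ) := by
        have : NeZero x := ⟨hx⟩
        rw [ZMod.val_neg_of_ne_zero]
        rw [Nat.cast_sub (ZMod.val_lt x).le]
      rw [hval]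
      simp only [map_div₀, map_add, map_sub, Complex.conj_natCast, Complex.ofReal_one]
      field_simp
      ring
  calc ∑ x : ZMod p, F (heckeMatrix p x.val • (J • z))
      = ∑ x : ZMod p, F (J • (heckeMatrix p (-x).val • z)) := Finset.sum_congr rfl fun x _ => key x
    _ = ∑ x : ZMod p, F (J • (heckeMatrix p x.val • z)) :=
        Equiv.sum_comp (Equiv.neg (ZMod p)) (fun x => F (J • (heckeMatrix p x.val • z)))

theorem sum_heckeRep_J {ℓ : ℕ} [Fact ℓ.Prime] (F : ℍ → ℂ)
    (hF : Function.Periodic (F ∘ ofComplex) ((1 : ℝ) : ℂ)) (z : ℍ) :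
    ∑ x : OnePoint (ZMod ℓ), F (heckeRep ℓ x • (J • z)) =
      ∑ x : OnePoint (ZMod ℓ), F (J • (heckeRep ℓ x • z)) := by
  have hℓ : ℓ ≠ 0 := (Fact.out : ℓ.Prime).ne_zero
  have : NeZero ℓ := ⟨hℓ⟩
  have h1 : ∑ x : OnePoint (ZMod ℓ), F (heckeRep ℓ x • (J • z)) =
      F (heckeDiagMatrix ℓ • (J • z)) + ∑ j : ZMod ℓ, F (heckeMatrix ℓ j.val • (J • z)) :=
    Fintype.sum_option (fun x : OnePoint (ZMod ℓ) => F (heckeRep ℓ x • (J • z)))
  have h2 : ∑ x : OnePoint (ZMod ℓ), F (J • (heckeRep ℓ x • z)) =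
      F (J • (heckeDiagMatrix ℓ • z)) + ∑ j : ZMod ℓ, F (J • (heckeMatrix ℓ j.val • z)) :=
    Fintype.sum_option (fun x : OnePoint (ZMod ℓ) => F (J • (heckeRep ℓ x • z)))
  rw [h1, h2, heckeDiagMatrix_smul_J hℓ, sum_heckeMatrix_J F hF z]

variable {N : ℕ} [NeZero N]

/-- The potential of `periodHomPair N (f, g)`. -/
def pairPotential (f g : CuspForm (Gamma0 N) 2) (z : ℍ) : ℂ :=
  prim f z + prim f (J • z) + (prim g z - prim g (J • z))

theorem pairPotential_spec (f g : CuspForm (Gamma0 N) 2) (δ : Gamma0 N) (z : ℍ) :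
    pairPotential f g ((δ : SL(2, ℤ)) • z) - pairPotential f g z =
      periodHomPair N (f, g) (Additive.ofMul δ) := by
  rw [periodHomPair_apply f g δ z, pairPotential, pairPotential]
  ring

theorem prim_periodic (f : CuspForm (Gamma0 N) 2) :
    Function.Periodic (prim f ∘ ofComplex) ((1 : ℝ) : ℂ) :=
  (prim_cuspidal f).per

/-- **Hecke equivariance of the Eichler–Shimura map, `T_ℓ`.** -/
theorem periodHomPair_heckeT {ℓ : ℕ} [Fact ℓ.Prime] (hℓ : ℓ.Prime) (hℓN : ¬ ℓ ∣ N)
    (f g : CuspForm (Gamma0 N) 2) (γ : Gamma0 N) :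
    periodHomPair N (CuspForm.heckeTLin 2 hℓ hℓN f, CuspForm.heckeTLin 2 hℓ hℓN g)
        (Additive.ofMul γ) =
      ∑ x : OnePoint (ZMod ℓ), periodHomPair N (f, g) (Additive.ofMul (tCoc hℓN γ x)) := by
  have hpot : ∀ w : ℍ, pairPotential (CuspForm.heckeTLin 2 hℓ hℓN f)
      (CuspForm.heckeTLin 2 hℓ hℓN g) w =
        ∑ x : OnePoint (ZMod ℓ), pairPotential f g (heckeRep ℓ x • w) := by
    intro w
    simp only [pairPotential, prim_heckeT hℓ hℓN]
    rw [sum_heckeRep_J (prim f) (prim_periodic f) w, sum_heckeRep_J (prim g) (prim_periodic g) w]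
    simp only [Finset.sum_add_distrib, Finset.sum_sub_distrib]
  rw [← pairPotential_spec _ _ γ UpperHalfPlane.I, hpot, hpot]
  exact sum_potential (heckeRep ℓ) γ (tPerm ℓ γ) (tCoc hℓN γ) (tCoc_rel hℓN γ)
    (pairPotential f g) (fun δ => periodHomPair N (f, g) (Additive.ofMul δ))
    (pairPotential_spec f g) UpperHalfPlane.I

/-- **Hecke equivariance of the Eichler–Shimura map, `U_p`.** -/
theorem periodHomPair_heckeU {p : ℕ} [NeZero p] (hpN : p ∣ N)
    (f g : CuspForm (Gamma0 N) 2) (γ : Gamma0 N) :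
    periodHomPair N (CuspForm.heckeULin 2 hpN f, CuspForm.heckeULin 2 hpN g)
        (Additive.ofMul γ) =
      ∑ x : ZMod p, periodHomPair N (f, g) (Additive.ofMul (uCoc hpN γ x)) := by
  have hpot : ∀ w : ℍ, pairPotential (CuspForm.heckeULin 2 hpN f)
      (CuspForm.heckeULin 2 hpN g) w =
        ∑ x : ZMod p, pairPotential f g (heckeMatrix p x.val • w) := by
    intro w
    simp only [pairPotential, prim_heckeU hpN]
    rw [sum_heckeMatrix_J (prim f) (prim_periodic f) w,
      sum_heckeMatrix_J (prim g) (prim_periodic g) w]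
    simp only [Finset.sum_add_distrib, Finset.sum_sub_distrib]
  rw [← pairPotential_spec _ _ γ UpperHalfPlane.I, hpot, hpot]
  exact sum_potential (fun x : ZMod p => heckeMatrix p x.val) γ (uPerm hpN γ) (uCoc hpN γ)
    (uCoc_rel hpN γ) (pairPotential f g) (fun δ => periodHomPair N (f, g) (Additive.ofMul δ))
    (pairPotential_spec f g) UpperHalfPlane.I

end Fermat.Agent.S16lib.LH
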