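/-
S16 / package LH (helper1).  (L4): a function on `Γ₀(N)` of the form `κ (d mod N)` with `κ`
additive on units is an eigenvector of the combinatorial Hecke operators, with the Eisenstein
eigenvalues `ℓ + 1` (for `T_ℓ`) and `p` (for `U_p`).
-/
import Mathlib
import Fermat.Agent.S16lib.LH.Cosets

set_option autoImplicit false

noncomputable section

namespace Fermat.Agent.S16lib.LH

open UpperHalfPlane CongruenceSubgroup Matrix.SpecialLinearGroup ModularForm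
open P2MW.S_ModularForm_heckeT_slash_eq_self_of_mem_Gamma0.ModularForm.HeckeSlashInvariance
open scoped MatrixGroups ModularForm

variable {N : ℕ} {A : Type*} [AddCommGroup A]

theorem isUnit_gamma0Map (γ : Gamma0 N) : IsUnit (Gamma0Map N γ) :=
  IsUnit.of_mul_eq_one _ ((mul_comm _ _).trans (upperLeft_mul_gamma0Map γ))

theorem isUnit_repD {ℓ : ℕ} [Fact ℓ.Prime] (hℓN : ¬ ℓ ∣ N) (x : OnePoint (ZMod ℓ)) :
    IsUnit ((repD ℓ x : ℕ) : ZMod N) := by
  induction x using OnePoint.rec with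
  | infty => simp
  | coe j =>
    rw [repD_coe]
    exact (ZMod.isUnit_iff_coprime ℓ N).mpr
      ((Nat.Prime.coprime_iff_not_dvd (Fact.out : ℓ.Prime)).mpr hℓN)

/-- **(L4), `T_ℓ`.** -/
theorem sum_tCoc_char {ℓ : ℕ} [Fact ℓ.Prime] (hℓN : ¬ ℓ ∣ N) (κ : ZMod N → A)
    (hκ : ∀ x y : ZMod N, IsUnit x → IsUnit y → κ (x * y) = κ x + κ y) (γ : Gamma0 N) :
    ∑ x : OnePoint (ZMod ℓ), κ (Gamma0Map N (tCoc hℓN γ x)) = (ℓ + 1) • κ (Gamma0Map N γ) := by
  have hℓ : ℓ ≠ 0 := (Fact.out : ℓ.Prime).ne_zero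
  have : NeZero ℓ := ⟨hℓ⟩
  have key : ∀ x : OnePoint (ZMod ℓ), κ (Gamma0Map N (tCoc hℓN γ x)) +
      κ ((repD ℓ (tPerm ℓ γ x) : ℕ) : ZMod N) =
        κ ((repD ℓ x : ℕ) : ZMod N) + κ (Gamma0Map N γ) := by
    intro x
    rw [← hκ _ _ (isUnit_gamma0Map _) (isUnit_repD hℓN _),
      ← hκ _ _ (isUnit_repD hℓN _) (isUnit_gamma0Map _), gamma0Map_tCoc hℓN γ x]
  have hsum := Finset.sum_congr (rfl : (Finset.univ : Finset (OnePoint (ZMod ℓ))) = Finset.univ)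
    (fun x _ => key x)
  rw [Finset.sum_add_distrib, Finset.sum_add_distrib,
    Equiv.sum_comp (tPerm ℓ γ) (fun x => κ ((repD ℓ x : ℕ) : ZMod N)), Finset.sum_const,
    Finset.card_univ] at hsum
  have hcard : Fintype.card (OnePoint (ZMod ℓ)) = ℓ + 1 := by
    have : Fintype.card (OnePoint (ZMod ℓ)) = Fintype.card (Option (ZMod ℓ)) :=
      Fintype.card_congr (Equiv.refl _)
    rw [this, Fintype.card_option, ZMod.card]
  rw [hcard] at hsum
  have h2 : ∑ x : OnePoint (ZMod ℓ), κ (Gamma0Map N (tCoc hℓN γ x)) +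
      ∑ x : OnePoint (ZMod ℓ), κ ((repD ℓ x : ℕ) : ZMod N) =
        (ℓ + 1) • κ (Gamma0Map N γ) + ∑ x : OnePoint (ZMod ℓ), κ ((repD ℓ x : ℕ) : ZMod N) := by
    rw [hsum, add_comm]
  exact add_right_cancel h2

/-- **(L4), `U_p`.** -/
theorem sum_uCoc_char {p : ℕ} [NeZero p] (hpN : p ∣ N) (κ : ZMod N → A) (γ : Gamma0 N) :
    ∑ x : ZMod p, κ (Gamma0Map N (uCoc hpN γ x)) = p • κ (Gamma0Map N γ) := by
  simp_rw [gamma0Map_uCoc hpN γ]
  rw [Finset.sum_const, Finset.card_univ, ZMod.card]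

end Fermat.Agent.S16lib.LH
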