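/-
S16 / package LH (helper1).  (L6): from an integral parabolic lift `ψ̃` of a Shimura-type class
`ψ = κ ∘ (d mod p) : Γ₀(p) → ℤ/n` (`n ∣ p - 1`) to the lower bound
`λ(P) = 0 → n ∣ ε(P)` for `P` in the abstract Hecke algebra.
-/
import Mathlib
import Fermat.Agent.S16lib.LH.Equivariance
import Fermat.Agent.S16lib.LH.Eigen
import Fermat.Agent.S21
import Fermat.Prelude.Def_CuspForm_HeckeEvalForms

set_option autoImplicit false

noncomputable section

namespace Fermat.Agent.S16lib.LH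

open UpperHalfPlane CongruenceSubgroup Matrix.SpecialLinearGroup ModularForm
open ModularCurve ModularCurve.Period CuspForm
open scoped MatrixGroups ModularForm

variable (p : ℕ) [Fact p.Prime]

/-- The endomorphism of `S₂(Γ₀(p))` attached to an abstract Hecke polynomial. -/
def heckeEnd (P : HeckeAlg) : Module.End ℂ (CuspForm (Gamma0 p) 2) :=
  ((heckeEvalForms p 2 P : heckeAlgebra p 2 ∅) : Module.End ℂ (CuspForm (Gamma0 p) 2))

theorem heckeEnd_C (a : ℤ) (f : CuspForm (Gamma0 p) 2) :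
    heckeEnd p (MvPolynomial.C a) f = a • f := by
  rw [heckeEnd, heckeEvalForms_C, Subalgebra.coe_algebraMap, Module.algebraMap_end_apply]

theorem heckeEnd_add (P Q : HeckeAlg) (f : CuspForm (Gamma0 p) 2) :
    heckeEnd p (P + Q) f = heckeEnd p P f + heckeEnd p Q f := by
  rw [heckeEnd, map_add, Subalgebra.coe_add, LinearMap.add_apply]
  rfl

theorem heckeEnd_mul_X (P : HeckeAlg) (ℓ : Nat.Primes) (f : CuspForm (Gamma0 p) 2) :
    heckeEnd p (P * MvPolynomial.X ℓ) f =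
      ((heckeFormsGen p 2 ℓ : heckeAlgebra p 2 ∅) : Module.End ℂ (CuspForm (Gamma0 p) 2))
        (heckeEnd p P f) := by
  have h : heckeEvalForms p 2 (P * MvPolynomial.X ℓ) =
      heckeFormsGen p 2 ℓ * heckeEvalForms p 2 P := by
    rw [map_mul, mul_comm]
    congr 1
    exact heckeEvalForms_heckeGen p 2 ℓ
  rw [heckeEnd, h, Subalgebra.coe_mul, Module.End.mul_apply]
  rfl

theorem heckeEnd_mul_X_of_not_dvd (P : HeckeAlg) (ℓ : Nat.Primes) (h : ¬ (ℓ : ℕ) ∣ p)
    (f : CuspForm (Gamma0 p) 2) :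
    heckeEnd p (P * MvPolynomial.X ℓ) f = CuspForm.heckeTLin 2 ℓ.2 h (heckeEnd p P f) := by
  rw [heckeEnd_mul_X, heckeFormsGen_of_not_dvd h]
  rfl

theorem heckeEnd_mul_X_of_dvd (P : HeckeAlg) (ℓ : Nat.Primes) (h : (ℓ : ℕ) ∣ p)
    (f : CuspForm (Gamma0 p) 2) :
    heckeEnd p (P * MvPolynomial.X ℓ) f = CuspForm.heckeULin 2 h (heckeEnd p P f) := by
  rw [heckeEnd_mul_X, heckeFormsGen_of_dvd h]
  rfl

theorem natCast_eq_one_of_dvd_pred {n : ℕ} (hn : n ∣ p - 1) : ((p : ℕ) : ZMod n) = 1 := by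
  have hp1 : 1 ≤ p := (Fact.out : p.Prime).one_lt.le
  have h0 : (((p - 1 : ℕ)) : ZMod n) = 0 := (ZMod.natCast_eq_zero_iff _ _).mpr hn
  have : (p : ZMod n) = ((p - 1 : ℕ) : ZMod n) + 1 := by
    rw [← Nat.cast_one (R := ZMod n), ← Nat.cast_add, Nat.sub_add_cancel hp1]
  rw [this, h0, zero_add]

/-- **(L6)**: the lower bound from an integral parabolic lift of a Shimura-type class. -/
theorem lower_bound_of_lift (n : ℕ) (hn : n ∣ p - 1) (ψT : Additive (Gamma0 p) →+ ℤ)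
    (κ : ZMod p → ZMod n) (hpar : IsParabolicHom (Gamma0 p) ψT)
    (hκ : ∀ x y : ZMod p, x ≠ 0 → y ≠ 0 → κ (x * y) = κ x + κ y)
    (hψ : ∀ γ : Gamma0 p, ((ψT (Additive.ofMul γ) : ℤ) : ZMod n) = κ (Gamma0Map p γ))
    (hone : ∃ γ : Gamma0 p, ((ψT (Additive.ofMul γ) : ℤ) : ZMod n) = 1)
    (P : HeckeAlg) (hP : heckeEvalForms p 2 P = 0) :
    (n : ℤ) ∣ MvPolynomial.aeval (R := ℤ) (eisensteinSystem p) P := by
  -- the complexified class is parabolic, hence in the image of the Eichler–Shimura map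
  set ψC : Additive (Gamma0 p) →+ ℂ := (Int.castAddHom ℂ).comp ψT with hψC
  have hmem : ψC ∈ parabolicHoms ℂ (Gamma0 p) ℂ := by
    rw [mem_parabolicHoms_iff]
    intro γ hγ
    show ((ψT (Additive.ofMul γ) : ℤ) : ℂ) = 0
    rw [hpar γ hγ, Int.cast_zero]
  rw [← (Fermat.Agent.S21.result p).2] at hmem
  obtain ⟨⟨f₀, g₀⟩, hfg⟩ := hmem
  have hκ' : ∀ x y : ZMod p, IsUnit x → IsUnit y → κ (x * y) = κ x + κ y :=
    fun x y hx hy => hκ x y hx.ne_zero hy.ne_zero
  -- the key induction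
  have key : ∀ Q : HeckeAlg, ∀ γ : Gamma0 p, ∃ m : ℤ,
      periodHomPair p (heckeEnd p Q f₀, heckeEnd p Q g₀) (Additive.ofMul γ) = (m : ℂ) ∧
        ((m : ℤ) : ZMod n) =
          ((MvPolynomial.aeval (R := ℤ) (eisensteinSystem p) Q : ℤ) : ZMod n) *
            κ (Gamma0Map p γ) := by
    intro Q
    induction Q using MvPolynomial.induction_on with
    | C a =>
      intro γ
      refine ⟨a * ψT (Additive.ofMul γ), ?_, ?_⟩
      · rw [heckeEnd_C, heckeEnd_C, ← Prod.smul_mk, map_zsmul, hfg]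
        simp [hψC]
      · rw [MvPolynomial.aeval_C, Int.cast_mul, hψ]
        rfl
    | add Q₁ Q₂ h₁ h₂ =>
      intro γ
      obtain ⟨m₁, e₁, c₁⟩ := h₁ γ
      obtain ⟨m₂, e₂, c₂⟩ := h₂ γ
      refine ⟨m₁ + m₂, ?_, ?_⟩
      · rw [heckeEnd_add, heckeEnd_add, ← Prod.mk_add_mk, map_add, AddMonoidHom.add_apply, e₁, e₂]
        push_cast
        rfl
      · rw [map_add, Int.cast_add, Int.cast_add, c₁, c₂, add_mul]
    | mul_X Q ℓ h =>
      intro γ
      have : Fact (ℓ : ℕ).Prime := ⟨ℓ.2⟩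
      by_cases hℓ : (ℓ : ℕ) ∣ p
      · -- `U_p`
        have : NeZero (ℓ : ℕ) := ⟨ℓ.2.ne_zero⟩
        choose m hm hc using fun x : ZMod (ℓ : ℕ) => h (uCoc hℓ γ x)
        refine ⟨∑ x, m x, ?_, ?_⟩
        · rw [heckeEnd_mul_X_of_dvd p Q ℓ hℓ, heckeEnd_mul_X_of_dvd p Q ℓ hℓ,
            periodHomPair_heckeU hℓ]
          push_cast
          exact Finset.sum_congr rfl fun x _ => hm x
        · have hℓp : (ℓ : ℕ) = p :=
            ((Nat.prime_dvd_prime_iff_eq ℓ.2 (Fact.out : p.Prime)).mp hℓ)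
          rw [Int.cast_sum]
          simp_rw [hc]
          rw [← Finset.mul_sum, sum_uCoc_char hℓ κ γ, map_mul, MvPolynomial.aeval_X,
            eisensteinSystem_of_dvd hℓ, mul_one, nsmul_eq_mul, hℓp,
            natCast_eq_one_of_dvd_pred p hn, one_mul]
      · -- `T_ℓ`
        choose m hm hc using fun x : OnePoint (ZMod (ℓ : ℕ)) => h (tCoc hℓ γ x)
        refine ⟨∑ x, m x, ?_, ?_⟩
        · rw [heckeEnd_mul_X_of_not_dvd p Q ℓ hℓ, heckeEnd_mul_X_of_not_dvd p Q ℓ hℓ,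
            periodHomPair_heckeT ℓ.2 hℓ]
          push_cast
          exact Finset.sum_congr rfl fun x _ => hm x
        · rw [Int.cast_sum]
          simp_rw [hc]
          rw [← Finset.mul_sum, sum_tCoc_char hℓ κ hκ' γ, map_mul, MvPolynomial.aeval_X,
            eisensteinSystem_of_not_dvd hℓ, nsmul_eq_mul]
          push_cast
          ring
  -- conclusion
  obtain ⟨γ₁, hγ₁⟩ := hone
  obtain ⟨m, hm, hc⟩ := key P γ₁
  have h0 : heckeEnd p P = 0 := by
    rw [heckeEnd, hP]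
    rfl
  rw [h0] at hm
  simp only [LinearMap.zero_apply] at hm
  have hm0 : m = 0 := by
    have : periodHomPair p ((0 : CuspForm (Gamma0 p) 2), (0 : CuspForm (Gamma0 p) 2)) = 0 := by
      rw [← Prod.zero_eq_mk, map_zero]
    rw [this, AddMonoidHom.zero_apply] at hm
    exact_mod_cast hm.symm
  rw [hm0, ← hψ γ₁, hγ₁, mul_one, Int.cast_zero] at hc
  exact (ZMod.intCast_zmod_eq_zero_iff_dvd _ _).mp hc.symm

end Fermat.Agent.S16lib.LH
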